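import Fermat.Agent.S40x.C2.Final.BlockC2OfCompat
import Fermat.Agent.S40x.C2.LevelCompat
import Fermat.Agent.S40x.C2.KummerPull

/-!
# P-S44, block C2: `Geo.FinalV2.BlockC2'`, hypothesis-free (independent second)  (helper23)

`BlockC2OfCompat.blockC2'_of_levelCompat` reduced `BlockC2'` to the single Prop `LevelCompat`
(= item (G-b)).  Here `LevelCompat` is proved from the landed leaves

* `KummerPull.exists_isKummerRep_pullbackPic` (helper29): a `p`-torsion class of level `M' p` has a
  Kummer function `u ∈ F_{M' p}` whose image is a Kummer function of the pull-back;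
* `LevelCompat.exists_rep_reductions_mem` (helper83): a class of level `M₀ p` with a Kummer function
  coming from `F_{M' p}` has a Kummer function, unit at both Gauss valuations, whose two reductions
  lie in `Fk k M'`.

Result: `blockC2'_second : Geo.FinalV2.BlockC2'` (the primary is helper28's `Geo/C2Seam.blockC2'`).
-/

set_option autoImplicit false
set_option linter.style.haveILetI false
set_option linter.unusedSectionVars false
set_option linter.unusedVariables false

noncomputable section

namespace Fermat.Agent.S40x.C2.Final.BlockC2Done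

open ModularCurve AlgebraicCurve IntermediateField IsLocalRing
open Fermat.Agent.Gateway.Hecke Fermat.Agent.Gateway.ESC Fermat.Agent.Gateway.Kummer
open Fermat.Agent.Gateway.Red Fermat.Agent.Gateway.GoodRed
open Fermat.Agent.Gateway.S31Red
open Fermat.Agent.S34x.TwoVal Fermat.Agent.S34x.C0two
open Fermat.Agent.S34x.Inst.RedSetupInst Fermat.Agent.S34x.Inst
open Fermat.Agent.S33x.KummerPn
open Fermat.Agent.S33x.Consumer.LevelTransport
open Fermat.Agent.S40x.Geo.Vocab
open Fermat.Agent.S40x.C2.Final.BlockC2OfCompat

local notation "Qb" => AlgebraicClosure ℚ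

/-- **(G-b) holds.** -/
theorem levelCompat : LevelCompat := by
  intro p M' M₀ _ _ _ hp hpM B hB hM h x₀
  haveI : Algebra.IsAlgebraic ℚ Qb := AlgebraicClosure.isAlgebraic ℚ
  haveI : Fact p.Prime := ⟨hp⟩
  haveI : IsAlgClosed (ResidueField B) := FinalBase.isAlgClosed_residueField B
  haveI : CharP (ResidueField B) p := FinalBase.charP_residueField B hB
  have hx : (p : ℤ) • (x₀ : JZero (M' * p)) = 0 := zsmul_coe_eq_zero x₀
  obtain ⟨u, -, hu⟩ :=
    Fermat.Agent.S40x.C2.KummerPull.exists_isKummerRep_pullbackPic h (m := p) hx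
  have hu' : IsKummerRep p ((pullbackTors h (p ^ 1) x₀ : JTors (M₀ * p) (p ^ 1)) : JZero (M₀ * p))
      (Fermat.Agent.S40x.C2.LevelCompat.inc (L := Qb) (q := p) hM u) := hu
  obtain ⟨w, hw, hU, hw₁, hw₂, -⟩ :=
    Fermat.Agent.S40x.C2.LevelCompat.exists_rep_reductions_mem
      (ResidueInst.residueFacts B (residue B) M₀ p (hdegQb M₀ p hp hpM) hp hpM
        (FinalBase.rank_one B hp hB) (FinalBase.residue_surjective B)) hB hM hu'
  exact ⟨w, hw, hU, hw₁, hw₂⟩

/-- **`BlockC2'`, hypothesis-free** (independent second of `Geo/C2Seam.blockC2'`). -/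
theorem blockC2'_second : Fermat.Agent.S40x.Geo.FinalV2.BlockC2' :=
  blockC2'_of_levelCompat levelCompat

end Fermat.Agent.S40x.C2.Final.BlockC2Done

end
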