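import Fermat.Agent.S40x.C2.DescentB.C2Closed
import Fermat.Agent.S40x.Geo.FinalV2
import Fermat.Agent.S40x.Geo.C2Bridge
import Fermat.Agent.S40x.A.NewKill

/-!
# P-S44, block C2: `Geo.FinalV2.BlockC2'` from the level-compatibility leaf (G-b)  (helper23)

`C2Closed.c2_closed` (= `AsmMain.c2_main` with `hdesc` and `hKH₂` discharged) is instantiated at the
`ℚ̄`-instance of `Geo/Vocab` (`A = B`, `k = ResidueField B`, `π = residue B`, the `ResidueFacts` of
`S33x/KummerPn.KmQb`), at the good level `Mh = M₀ = lcm M' 4`, for the class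
`ξ = (x : JZero (M₀ p))`, `x = pullbackTors x₀ ∈ V̂`, with eigenvalues `a ℓ = thetaVal θ ℓ` on the
index set `I = {ℓ | ℓ ∉ S}`; the output is fed to `A/NewKill.false_of_new_of_qseries`.

The only hypothesis left is `LevelCompat` (= item (G-b) of note 2855): the pull-back to the level
`M₀ p` of a class `x₀` of the level `M' p` has a Kummer function, unit at both Gauss valuations,
whose two reductions lie in `Fk k M'`.

Main result: `blockC2'_of_levelCompat : LevelCompat → Geo.FinalV2.BlockC2'`.
-/

set_option autoImplicit false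
set_option linter.style.haveILetI false
set_option linter.unusedSectionVars false
set_option linter.unusedVariables false

noncomputable section

namespace Fermat.Agent.S40x.C2.Final.BlockC2OfCompat

open ModularCurve AlgebraicCurve IntermediateField IsLocalRing HahnSeries CongruenceSubgroup
open UpperHalfPlane CuspForm
open Fermat.Agent.Gateway.Hecke Fermat.Agent.Gateway.ESC Fermat.Agent.Gateway.Kummer
open Fermat.Agent.Gateway.Red Fermat.Agent.Gateway.GoodRed
open Fermat.Agent.Gateway.GoodRed.ConjFamily (Fk jFk)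
open Fermat.Agent.Gateway.S31Red
open Fermat.Agent.S34x.TwoVal Fermat.Agent.S34x.C0two
open Fermat.Agent.S34x.Inst.RedSetupInst Fermat.Agent.S34x.Inst
open Fermat.Agent.S33x.KummerPn
open Fermat.Agent.S33x.Consumer.LevelTransport
open Fermat.Agent.S40x.Slope.UnitTwo Fermat.Agent.S40x.Slope.SlopeInv Fermat.Agent.S40x.Slope.Xf
  Fermat.Agent.S40x.Slope.OfRedSetup Fermat.Agent.S40x.Slope.InstMq
open Fermat.Agent.S40x.Geo.Vocab Fermat.Agent.S40x.Geo.Final Fermat.Agent.S40x.Geo.FinalV2
open Fermat.Agent.S40x.Level.G0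

local notation "Qb" => AlgebraicClosure ℚ

/-- **(G-b), level compatibility**: the pull-back to the level `M₀ p` of a class `x₀` of the level
`M' p` has a Kummer function `w`, unit at both Gauss valuations of the level `(M₀, p)`, whose two
reductions lie (as Laurent series) in `Fk k M'`. -/
def LevelCompat : Prop :=
  ∀ (p M' M₀ : ℕ) [NeZero M'] [NeZero p] [NeZero M₀] (hp : p.Prime) (hpM : ¬ p ∣ M₀)
    (B : ValuationSubring Qb) (hB : B.LiesOverPrime p) (hM : M' ∣ M₀) (h : M' * p ∣ M₀ * p)
    (x₀ : JTors (M' * p) (p ^ 1)),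
    haveI : Algebra.IsAlgebraic ℚ Qb := AlgebraicClosure.isAlgebraic ℚ
    haveI : Fact p.Prime := ⟨hp⟩
    haveI : IsAlgClosed (ResidueField B) := FinalBase.isAlgClosed_residueField B
    haveI : CharP (ResidueField B) p := FinalBase.charP_residueField B hB
    ∃ w : FL Qb (M₀ * p),
      IsKummerRep p ((pullbackTors h (p ^ 1) x₀ : JTors (M₀ * p) (p ^ 1)) : JZero (M₀ * p)) w ∧
      UnitTwo
        (valInfty B (residue B) M₀ p (FinalBase.rank_one B hp hB)
          (FinalBase.residue_surjective B) hpM)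
        (valZero B (residue B) M₀ p (hdegQb M₀ p hp hpM) hp hpM (FinalBase.rank_one B hp hB)
          (FinalBase.residue_surjective B)) w ∧
      ((red (valInfty B (residue B) M₀ p (FinalBase.rank_one B hp hB)
            (FinalBase.residue_surjective B) hpM)
          (redSetupInfty (ResidueInst.residueFacts B (residue B) M₀ p (hdegQb M₀ p hp hpM) hp hpM
            (FinalBase.rank_one B hp hB) (FinalBase.residue_surjective B)) hB).res w :
            modularFunctionFieldFullC (ResidueField B) M₀) : LaurentSeries (ResidueField B)) ∈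
          Fk (ResidueField B) M' ∧
      ((red (valZero B (residue B) M₀ p (hdegQb M₀ p hp hpM) hp hpM (FinalBase.rank_one B hp hB)
            (FinalBase.residue_surjective B))
          (redSetupZero (ResidueInst.residueFacts B (residue B) M₀ p (hdegQb M₀ p hp hpM) hp hpM
            (FinalBase.rank_one B hp hB) (FinalBase.residue_surjective B)) hB).res w :
            modularFunctionFieldFullC (ResidueField B) M₀) : LaurentSeries (ResidueField B)) ∈
          Fk (ResidueField B) M'

/-- **`BlockC2'` from (G-b).** -/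
theorem blockC2'_of_levelCompat (hGb : LevelCompat) : BlockC2' := by
  intro p M' M₀ _ _ _ hp hpM S θ B hB V L hctx x hxV hxf
  by_contra hxK
  haveI : Algebra.IsAlgebraic ℚ Qb := AlgebraicClosure.isAlgebraic ℚ
  haveI : Fact p.Prime := ⟨hp⟩
  haveI : IsAlgClosed (ResidueField B) := FinalBase.isAlgClosed_residueField B
  haveI : CharP (ResidueField B) p := FinalBase.charP_residueField B hB
  -- the level arithmetic
  have hM : M' ∣ M₀ := by rw [hctx.level]; exact Nat.dvd_lcm_left M' 4
  have hMh : M₀ ∣ Nat.lcm 4 M' := by rw [hctx.level, Nat.lcm_comm]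
  -- `x` comes from the level `M' p`
  obtain ⟨h, V₀, L₀, hV, -, -, -, -⟩ := hctx.descends
  rw [hV] at hxV
  obtain ⟨x₀, hx₀V, hx₀⟩ := hxV
  -- the Kummer function of (G-b)
  obtain ⟨w, hw, hU, hw₁, hw₂⟩ := hGb p M' M₀ hp hpM B hB hM h x₀
  rw [hx₀] at hw
  -- the C2 block at the level `M₀`
  obtain ⟨f', qf', hqf', -, -, -, hsat', hmain⟩ :=
    C2.DescentB.C2Closed.c2_closed
      (ResidueInst.residueFacts B (residue B) M₀ p (hdegQb M₀ p hp hpM) hp hpM
        (FinalBase.rank_one B hp hB) (FinalBase.residue_surjective B)) hB hM hctx.four_dvd hMh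
      hctx.five_le
  have hξ1 : (x : JZero (M₀ * p)) ∉ Km (ResidueInst.residueFacts B (residue B) M₀ p
      (hdegQb M₀ p hp hpM) hp hpM (FinalBase.rank_one B hp hB)
      (FinalBase.residue_surjective B)) hB p := by
    intro hmem
    apply hxK
    rw [mem_KmTors_iff]
    have hKm : Km (ResidueInst.residueFacts B (residue B) M₀ p
        (hdegQb M₀ p hp hpM) hp hpM (FinalBase.rank_one B hp hB)
        (FinalBase.residue_surjective B)) hB (p ^ 1) =
      Km (ResidueInst.residueFacts B (residue B) M₀ p
        (hdegQb M₀ p hp hpM) hp hpM (FinalBase.rank_one B hp hB)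
        (FinalBase.residue_surjective B)) hB p := by rw [pow_one]
    show (x : JZero (M₀ * p)) ∈ Km (ResidueInst.residueFacts B (residue B) M₀ p
      (hdegQb M₀ p hp hpM) hp hpM (FinalBase.rank_one B hp hB)
      (FinalBase.residue_surjective B)) hB (p ^ 1)
    rw [hKm]
    exact hmem
  obtain ⟨c, g, hg, hg0, heigg⟩ := hmain (fun l => ((thetaVal θ l : ℕ) : ℤ))
    {l : ℕ | l ∉ S} (ξ := (x : JZero (M₀ * p))) hxf hξ1
    (fun ℓ _ hℓ hℓN hℓS => by
      have h1 := hctx.eigen ℓ hℓ hℓN hℓS x (by rw [hV]; exact ⟨x₀, hx₀V, hx₀⟩)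
      rw [natCast_zsmul]
      exact h1)
    hw hU hw₁ hw₂
  -- the contradiction with `hnew`
  refine Fermat.Agent.S40x.A.NewKill.false_of_new_of_qseries hp S
    (fun q hq hqN => Finset.mem_coe.mpr (hctx.mem_of_dvd q hq hqN)) θ hctx.new
    (fun l => ((thetaVal θ l : ℕ) : ℤ)) (fun l hl hlN hlS => ?_) f' qf' hqf'
    (Fermat.Agent.S40x.Geo.C2Bridge.linearIndependent_zmod_of_field qf' hsat') c g hg hg0
    (fun l hl hlM hlS => ?_)
  · rw [Int.cast_natCast, thetaVal_cast θ hl hlN hlS]
  · haveI : NeZero l := ⟨hl.ne_zero⟩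
    have hlS' : l ∉ S := fun h => hlS (Finset.mem_coe.mpr h)
    exact heigg l hl (hctx.not_dvd_of_notMem l hl hlS') hlS'

end Fermat.Agent.S40x.C2.Final.BlockC2OfCompat

end
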